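import Mathlib
import Fermat.Prelude.Def_ModularCurve_HeckeOperator
import Fermat.Agent.S24.FiniteFibres
import Fermat.Agent.S37.HeckeInputs.Basic

/-!
# S37 (GEN): `F_n = ℚ̄(j_d : d ∣ n)` is generated over `ℚ̄` by any family `j_d`, `d ∈ S`,
with `1 ∈ S` and `lcm S = n`

The `ψ(n)` conjugates `f ↦ (Φ f) ∘ g⁻¹` (`g ∈ SL(2,ℤ)/Γ₀(n)`) of the S24 bridge agree on `ℚ̄(J)`
and are pairwise distinct on `E = ℚ̄(j_d : d ∈ S)`: equality on `j_d` forces `g⁻¹ g' ∈ Γ₀(d)`, and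
`⋂_{d ∈ S} Γ₀(d) = Γ₀(lcm S)`.  Hence `ψ(n) ≤ [E : ℚ̄(J)] ≤ [F_n : ℚ̄(J)] = ψ(n)` (S24 (T0)).
-/

set_option autoImplicit false

namespace Fermat.Agent.S37.Gen.Generation

open scoped MatrixGroups
open IntermediateField UpperHalfPlane CongruenceSubgroup ModularCurve
open Fermat.Agent.S20 Fermat.Agent.S24 Fermat.Agent.S24.PsiLe Fermat.Agent.S24.BridgeInv
  Fermat.Agent.S24.PlaceAt AlgebraicCurve Fermat.Agent.S37.HeckeInputs

noncomputable section

/-! ### the stabiliser computation -/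

/-- two conjugates of `z ↦ J (d z)` coincide only if the matrices agree modulo `Γ₀(d)`. -/
theorem inv_mul_mem_Gamma0_of_conjG_eq {J : ℍ → ℂ}
    (hinv : ∀ (γ : SL(2, ℤ)) (z : ℍ), J (γ • z) = J z)
    (hq : Filter.Tendsto (fun z : ℍ => J z * Function.Periodic.qParam 1 (z : ℂ))
      atImInfty (nhds 1))
    (d : ℕ) [NeZero d] (g g' : SL(2, ℤ)) (h : JConj.conjG J d g = JConj.conjG J d g') :
    g⁻¹ * g' ∈ Gamma0 d := by
  refine JConj.mem_Gamma0_of_comp_eq hinv hq d _ fun z => ?_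
  have h1 := congrFun h (g' • z)
  unfold JConj.conjG at h1
  rw [← mul_smul, ← mul_smul, inv_mul_cancel, one_smul] at h1
  exact h1

/-- `⋂_{d ∈ S} Γ₀(d) = Γ₀(lcm S)`. -/
theorem mem_Gamma0_lcm (S : Finset ℕ) (γ : SL(2, ℤ)) (h : ∀ d ∈ S, γ ∈ Gamma0 d) :
    γ ∈ Gamma0 (S.lcm id) := by
  rw [mem_Gamma0_iff_dvd, Int.natCast_dvd]
  refine Finset.lcm_dvd fun d hd => ?_
  have := h d hd
  rw [mem_Gamma0_iff_dvd, Int.natCast_dvd] at this
  exact this

variable {n : ℕ} {Φ : FF n →+* Mer}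

/-- equality of two conjugates of `Φ (j_d)` forces equality of the level-`d` conjugate functions -/
theorem conjG_eq_of_compMer_eq (hΦ : IsBridge n Φ) (d : ℕ) [NeZero d] (hd : d ∣ n)
    (g g' : SL(2, ℤ))
    (h : compMer g⁻¹ (Φ (Jd n d hd)) = compMer g'⁻¹ (Φ (Jd n d hd))) :
    JConj.conjG jFun d g = JConj.conjG jFun d g' := by
  obtain ⟨hN, hΦN, hhN⟩ := hΦ.gen d inferInstance hd
  rw [hΦN, compMer_algebraMap, compMer_algebraMap] at h
  have h3 := algebraMap_Hol_Mer_injective h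
  funext z
  have h4 := congrFun (congrArg Subtype.val h3) z
  have e : ∀ (γ : SL(2, ℤ)), ((compHol γ⁻¹ hN : Hol) : ℍ → ℂ) z
      = jFun (JConj.mulN d (γ⁻¹ • z)) := fun γ => by
    rw [compHol_apply]
    exact hhN _ _ (JConj.coe_mulN d _)
  show jFun (JConj.mulN d (g⁻¹ • z)) = jFun (JConj.mulN d (g'⁻¹ • z))
  rw [← e, ← e]
  exact h4

/-- the generating set attached to `S` -/
def genSet (n : ℕ) (S : Finset ℕ) (hS : ∀ d ∈ S, d ∣ n) : Set (FF n) :=
  {x : FF n | ∃ d, ∃ (hd : d ∈ S) (_ : NeZero d), x = Jd n d (hS d hd)}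

theorem Jd_mem_genSet (n : ℕ) (S : Finset ℕ) (hS : ∀ d ∈ S, d ∣ n) (d : ℕ) [NeZero d]
    (hd : d ∈ S) : Jd n d (hS d hd) ∈ genSet n S hS :=
  ⟨d, hd, inferInstance, rfl⟩

/-- **Generation**, for an arbitrary bridge. -/
theorem adjoin_genSet_eq_top_of_isBridge [NeZero n] (hΦ : IsBridge n Φ)
    [FiniteDimensional Kbar⟮J n⟯ (FF n)]
    (hdeg : Module.finrank Kbar⟮J n⟯ (FF n) = dedekindPsi n)
    (S : Finset ℕ) (h1 : 1 ∈ S) (hS : ∀ d ∈ S, d ∣ n) (hlcm : S.lcm id = n) :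
    adjoin Kbar (genSet n S hS) = ⊤ := by
  classical
  set E := adjoin Kbar (genSet n S hS) with hE
  have hJE : J n ∈ E := subset_adjoin Kbar (genSet n S hS) (Jd_mem_genSet n S hS 1 h1)
  have hle : Kbar⟮J n⟯ ≤ E := adjoin_simple_le_iff.mpr hJE
  set E' : IntermediateField Kbar⟮J n⟯ (FF n) := extendScalars hle with hE'
  -- the conjugates, restricted to `E'`
  let σ : Q n → ↥E' →+* Mer := fun q => (conjMer Φ q).comp (algebraMap ↥E' (FF n))
  have hagree : ∀ (q q' : Q n) (a : Kbar⟮J n⟯),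
      σ q (algebraMap Kbar⟮J n⟯ ↥E' a) = σ q' (algebraMap Kbar⟮J n⟯ ↥E' a) := by
    intro q q' a
    show conjMer Φ q (a : FF n) = conjMer Φ q' (a : FF n)
    refine eq_on_adjoin (conjMer Φ q) (conjMer Φ q') (fun k => ?_) (J n) ?_ _ a.2
    · rw [conjMer_const hΦ, conjMer_const hΦ]
    · rw [conjMer_J hΦ, conjMer_J hΦ]
  have hinj : Function.Injective σ := by
    intro q q' hqq
    have key : ∀ d ∈ S, q.out⁻¹ * q'.out ∈ Gamma0 d := by
      intro d hd
      have hdn : d ∣ n := hS d hd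
      have hd0 : d ≠ 0 := fun h0 => NeZero.ne n (by rw [h0] at hdn; exact zero_dvd_iff.mp hdn)
      have : NeZero d := ⟨hd0⟩
      have hmemE : Jd n d hdn ∈ E := subset_adjoin Kbar (genSet n S hS) (Jd_mem_genSet n S hS d hd)
      have hmem : Jd n d hdn ∈ E' := hmemE
      have h2 := congrArg (fun f : ↥E' →+* Mer => f ⟨Jd n d hdn, hmem⟩) hqq
      have h3 : compMer q.out⁻¹ (Φ (Jd n d hdn)) = compMer q'.out⁻¹ (Φ (Jd n d hdn)) := h2
      exact inv_mul_mem_Gamma0_of_conjG_eq jFun_smul tendsto_jFun_mul_qParam d _ _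
        (conjG_eq_of_compMer_eq hΦ d hdn _ _ h3)
    have hmem := mem_Gamma0_lcm S _ key
    rw [hlcm] at hmem
    have := (QuotientGroup.eq (s := Gamma0 n)).mpr hmem
    rwa [QuotientGroup.out_eq', QuotientGroup.out_eq'] at this
  have hcard : Nat.card (Q n) ≤ Module.finrank Kbar⟮J n⟯ ↥E' :=
    card_le_finrank_of_ringHom (k := Kbar⟮J n⟯) σ hagree hinj
  rw [card_quotient_Gamma0 n, ← hdeg] at hcard
  have htop : E' = ⊤ := by
    refine IntermediateField.eq_of_le_of_finrank_le le_top ?_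
    rw [IntermediateField.finrank_top']
    exact hcard
  rw [eq_top_iff]
  intro x _
  have : x ∈ E' := by rw [htop]; exact IntermediateField.mem_top
  exact this

/-- **Generation**: `F_n` is generated over `ℚ̄` by the `j_d`, `d ∈ S`, as soon as `1 ∈ S` and
`lcm S = n`. -/
theorem adjoin_Jd_eq_top (n : ℕ) [NeZero n] (S : Finset ℕ) (h1 : 1 ∈ S) (hS : ∀ d ∈ S, d ∣ n)
    (hlcm : S.lcm id = n) :
    adjoin Kbar {x : FF n | ∃ d, ∃ (hd : d ∈ S) (_ : NeZero d), x = Jd n d (hS d hd)} = ⊤ :=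
  adjoin_genSet_eq_top_of_isBridge (BridgePhi.isBridge_PhiBar n) (FiniteFibres.T0 n) S h1 hS hlcm

/-! ### special generating sets -/

/-- `F_n = ℚ̄(J, j_a, j_b)` when `lcm a b = n`. -/
theorem adjoin_three_eq_top (n a b : ℕ) [NeZero n] [NeZero a] [NeZero b] (ha : a ∣ n)
    (hb : b ∣ n) (hlcm : Nat.lcm a b = n) :
    adjoin Kbar ({J n, Jd n a ha, Jd n b hb} : Set (FF n)) = ⊤ := by
  have hS : ∀ d ∈ ({1, a, b} : Finset ℕ), d ∣ n := by
    intro d hd
    simp only [Finset.mem_insert, Finset.mem_singleton] at hd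
    rcases hd with rfl | rfl | rfl
    · exact one_dvd n
    · exact ha
    · exact hb
  have h := adjoin_Jd_eq_top n {1, a, b} (by simp) hS (by
    rw [Finset.lcm_insert, Finset.lcm_insert, Finset.lcm_singleton]
    simp only [id, normalize_eq, lcm_one_left, lcm_eq_nat_lcm]
    exact hlcm)
  rw [eq_top_iff, ← h]
  refine adjoin.mono _ _ _ ?_
  rintro x ⟨d, hd, _, rfl⟩
  simp only [Finset.mem_insert, Finset.mem_singleton] at hd
  rcases hd with rfl | rfl | rfl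
  · exact Or.inl rfl
  · exact Or.inr (Or.inl rfl)
  · exact Or.inr (Or.inr rfl)

/-- `F_n = ℚ̄(J, j_n)`. -/
theorem adjoin_pair_eq_top (n : ℕ) [NeZero n] :
    adjoin Kbar ({J n, Jd n n dvd_rfl} : Set (FF n)) = ⊤ := by
  have h := adjoin_three_eq_top n n n dvd_rfl dvd_rfl (Nat.lcm_self n)
  rw [eq_top_iff, ← h]
  refine adjoin.mono _ _ _ ?_
  rintro x (rfl | rfl | rfl)
  · exact Or.inl rfl
  · exact Or.inr rfl
  · exact Or.inr rfl

/-! ### generation along an algebra homomorphism `F_m → F_n` -/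

/-- If every generator `j_d` (`d ∈ S`) of `F_n` lies in the image of `φ : F_m → F_n` or in `T`,
then `F_n = φ(F_m)(T)`. -/
theorem adjoin_along_eq_top {m n : ℕ} [NeZero n] (φ : FF m →ₐ[Kbar] FF n) (T : Set (FF n))
    (S : Finset ℕ) (h1 : 1 ∈ S) (hS : ∀ d ∈ S, d ∣ n) (hlcm : S.lcm id = n)
    (hmem : ∀ x ∈ genSet n S hS, x ∈ Set.range φ ∪ T) :
    letI := algebraAlong φ
    IntermediateField.adjoin (FF m) T = ⊤ := by
  letI := algebraAlong φ
  haveI := isScalarTower_along φ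
  rw [eq_top_iff]
  intro x _
  have hx : x ∈ adjoin Kbar (genSet n S hS) := by
    have := adjoin_Jd_eq_top n S h1 hS hlcm
    unfold genSet
    rw [this]
    exact IntermediateField.mem_top
  have hle : adjoin Kbar (genSet n S hS)
      ≤ (IntermediateField.adjoin (FF m) T).restrictScalars Kbar := by
    rw [adjoin_le_iff]
    intro y hy
    rcases hmem y hy with ⟨z, rfl⟩ | hT
    · exact (IntermediateField.adjoin (FF m) T).algebraMap_mem z
    · exact subset_adjoin (FF m) T hT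
  exact hle hx

/-- the same with `Algebra.adjoin` (the extension is algebraic). -/
theorem algebra_adjoin_along_eq_top {m n : ℕ} [NeZero n] (φ : FF m →ₐ[Kbar] FF n)
    (hφ : φ.toRingHom.IsIntegral) (T : Set (FF n))
    (S : Finset ℕ) (h1 : 1 ∈ S) (hS : ∀ d ∈ S, d ∣ n) (hlcm : S.lcm id = n)
    (hmem : ∀ x ∈ genSet n S hS, x ∈ Set.range φ ∪ T) :
    letI := algebraAlong φ
    Algebra.adjoin (FF m) T = ⊤ := by
  letI := algebraAlong φ
  haveI := isIntegral_along φ hφ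
  have h := adjoin_along_eq_top φ T S h1 hS hlcm hmem
  have h2 := IntermediateField.adjoin_toSubalgebra_of_isAlgebraic (F := FF m) (S := T)
    (fun x _ => (Algebra.IsIntegral.isIntegral x).isAlgebraic)
  rw [← h2, h]
  rfl

/-! ### the Hecke degeneracy maps -/

variable (M ℓ : ℕ) [NeZero M] [NeZero ℓ]

theorem heckeAlphaBar_Jd (d : ℕ) [NeZero d] (hd : d ∣ M) :
    heckeAlphaBar Kbar M ℓ (Jd M d hd) = Jd (M * ℓ) d (hd.mul_right ℓ) := by
  apply Subtype.ext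
  rw [coe_heckeAlphaBar]
  rfl

theorem heckeBetaBar_Jd (d : ℕ) [NeZero d] (hd : d ∣ M) :
    heckeBetaBar Kbar M ℓ (Jd M d hd) = Jd (M * ℓ) (d * ℓ) (Nat.mul_dvd_mul_right hd ℓ) := by
  apply Subtype.ext
  rw [coe_heckeBetaBar, coe_Jd, coe_Jd, coeffEmb, ← coeffMap_qExpand, qExpand_qExpand]
  congr 1
  exact qExpand_congr (mul_comm ℓ d) _

/-- **(a)** `F_{Mℓ} = α(F_M)(j_ℓ)` for `gcd(M, ℓ) = 1`. -/
theorem adjoin_alpha_eq_top (hcop : Nat.Coprime M ℓ) :
    letI := algebraAlong (heckeAlphaBar Kbar M ℓ)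
    IntermediateField.adjoin (FF M) ({Jd (M * ℓ) ℓ (dvd_mul_left ℓ M)} : Set (FF (M * ℓ))) = ⊤ := by
  have hS : ∀ d ∈ ({1, M, ℓ} : Finset ℕ), d ∣ M * ℓ := by
    intro d hd
    simp only [Finset.mem_insert, Finset.mem_singleton] at hd
    rcases hd with rfl | rfl | rfl
    · exact one_dvd _
    · exact dvd_mul_right _ _
    · exact dvd_mul_left _ _
  refine adjoin_along_eq_top (heckeAlphaBar Kbar M ℓ) _ {1, M, ℓ} (by simp) hS (by
    rw [Finset.lcm_insert, Finset.lcm_insert, Finset.lcm_singleton]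
    simp only [id, normalize_eq, lcm_one_left, lcm_eq_nat_lcm]
    exact hcop.lcm_eq_mul) ?_
  rintro x ⟨d, hd, _, rfl⟩
  simp only [Finset.mem_insert, Finset.mem_singleton] at hd
  rcases hd with rfl | rfl | rfl
  · exact Or.inl ⟨J M, heckeAlphaBar_J M ℓ⟩
  · exact Or.inl ⟨Jd d d dvd_rfl, heckeAlphaBar_Jd d ℓ d dvd_rfl⟩
  · exact Or.inr rfl

/-- **(a)**, `Algebra.adjoin` form. -/
theorem algebra_adjoin_alpha_eq_top (hcop : Nat.Coprime M ℓ) :
    letI := algebraAlong (heckeAlphaBar Kbar M ℓ)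
    Algebra.adjoin (FF M) ({Jd (M * ℓ) ℓ (dvd_mul_left ℓ M)} : Set (FF (M * ℓ))) = ⊤ := by
  letI := algebraAlong (heckeAlphaBar Kbar M ℓ)
  haveI := isIntegral_along (heckeAlphaBar Kbar M ℓ) (heckeAlphaBarIntegral M ℓ)
  have h := adjoin_alpha_eq_top M ℓ hcop
  have h2 := IntermediateField.adjoin_toSubalgebra_of_isAlgebraic (F := FF M)
    (S := ({Jd (M * ℓ) ℓ (dvd_mul_left ℓ M)} : Set (FF (M * ℓ))))
    (fun x _ => (Algebra.IsIntegral.isIntegral x).isAlgebraic)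
  rw [← h2, h]
  rfl

/-- **(a)**, the shape consumed by (E6): if `ι : F_{Nℓ} → F_{Mℓ}` is the inclusion (`N ∣ M`), then
`F_{Mℓ} = α(F_M) · ι(F_{Nℓ})`. -/
theorem algebra_adjoin_range_eq_top (hcop : Nat.Coprime M ℓ) {N : ℕ} [NeZero N]
    (ι : FF (N * ℓ) → FF (M * ℓ))
    (hι : ∀ x, ((ι x : FF (M * ℓ)) : LaurentSeries Kbar) = (x : LaurentSeries Kbar)) :
    letI := algebraAlong (heckeAlphaBar Kbar M ℓ)
    Algebra.adjoin (FF M) (Set.range ι) = ⊤ := by
  letI := algebraAlong (heckeAlphaBar Kbar M ℓ)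
  rw [eq_top_iff, ← algebra_adjoin_alpha_eq_top M ℓ hcop]
  refine Algebra.adjoin_mono ?_
  rintro x rfl
  exact ⟨Jd (N * ℓ) ℓ (dvd_mul_left ℓ N), Subtype.ext (hι _)⟩

/-- **(b)** `F_{Mℓ} = β(F_M)(J)`. -/
theorem adjoin_beta_eq_top :
    letI := algebraAlong (heckeBetaBar Kbar M ℓ)
    IntermediateField.adjoin (FF M) ({J (M * ℓ)} : Set (FF (M * ℓ))) = ⊤ := by
  have hS : ∀ d ∈ ({1, M * ℓ} : Finset ℕ), d ∣ M * ℓ := by
    intro d hd
    simp only [Finset.mem_insert, Finset.mem_singleton] at hd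
    rcases hd with rfl | rfl
    · exact one_dvd _
    · exact dvd_rfl
  refine adjoin_along_eq_top (heckeBetaBar Kbar M ℓ) _ {1, M * ℓ} (by simp) hS (by
    rw [Finset.lcm_insert, Finset.lcm_singleton]
    simp only [id, normalize_eq, lcm_one_left]) ?_
  rintro x ⟨d, hd, _, rfl⟩
  simp only [Finset.mem_insert, Finset.mem_singleton] at hd
  rcases hd with rfl | rfl
  · exact Or.inr rfl
  · exact Or.inl ⟨Jd M M dvd_rfl, heckeBetaBar_Jd M ℓ M dvd_rfl⟩

/-- **(b)**, `Algebra.adjoin` form. -/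
theorem algebra_adjoin_beta_eq_top :
    letI := algebraAlong (heckeBetaBar Kbar M ℓ)
    Algebra.adjoin (FF M) ({J (M * ℓ)} : Set (FF (M * ℓ))) = ⊤ := by
  letI := algebraAlong (heckeBetaBar Kbar M ℓ)
  haveI := isIntegral_along (heckeBetaBar Kbar M ℓ) (heckeBetaBarIntegral M ℓ)
  have h := adjoin_beta_eq_top M ℓ
  have h2 := IntermediateField.adjoin_toSubalgebra_of_isAlgebraic (F := FF M)
    (S := ({J (M * ℓ)} : Set (FF (M * ℓ))))
    (fun x _ => (Algebra.IsIntegral.isIntegral x).isAlgebraic)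
  rw [← h2, h]
  rfl

/-! ### the ambient form inside `ℚ̄((q))` -/

theorem bar_le_of_dvd {a n : ℕ} [NeZero a] [NeZero n] (h : a ∣ n) :
    modularFunctionFieldBar a ≤ modularFunctionFieldBar n := by
  rw [modularFunctionFieldBar, laurentBaseChange, IntermediateField.adjoin_le_iff]
  rintro _ ⟨y, hy, rfl⟩
  exact coeffEmb_mem_laurentBaseChange Kbar (full_degeneracy_le h hy)

/-- **(a)**, ambient form: `F_n = F_a · F_b` inside `ℚ̄((q))` when `lcm a b = n`. -/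
theorem bar_eq_sup (n a b : ℕ) [NeZero n] [NeZero a] [NeZero b] (ha : a ∣ n) (hb : b ∣ n)
    (hlcm : Nat.lcm a b = n) :
    modularFunctionFieldBar n = modularFunctionFieldBar a ⊔ modularFunctionFieldBar b := by
  refine le_antisymm ?_ (sup_le (bar_le_of_dvd ha) (bar_le_of_dvd hb))
  have h := adjoin_three_eq_top n a b ha hb hlcm
  have h2 := IntermediateField.lift_adjoin Kbar (modularFunctionFieldBar n)
    ({J n, Jd n a ha, Jd n b hb} : Set (FF n))
  rw [h, IntermediateField.lift_top] at h2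
  rw [h2, IntermediateField.adjoin_le_iff]
  rintro _ ⟨x, hx, rfl⟩
  rcases hx with rfl | rfl | rfl
  · exact (le_sup_left : modularFunctionFieldBar a ≤ _) (J a).2
  · exact (le_sup_left : modularFunctionFieldBar a ≤ _) (Jd a a dvd_rfl).2
  · exact (le_sup_right : modularFunctionFieldBar b ≤ _) (Jd b b dvd_rfl).2

/-- `F_{Mℓ} = F_M · F_{Nℓ}` inside `ℚ̄((q))` for `N ∣ M`, `gcd(M, ℓ) = 1`. -/
theorem bar_mul_eq_sup (hcop : Nat.Coprime M ℓ) {N : ℕ} [NeZero N] (hNM : N ∣ M) :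
    modularFunctionFieldBar (M * ℓ)
      = modularFunctionFieldBar M ⊔ modularFunctionFieldBar (N * ℓ) := by
  refine bar_eq_sup (M * ℓ) M (N * ℓ) (dvd_mul_right M ℓ) (Nat.mul_dvd_mul_right hNM ℓ) ?_
  apply Nat.dvd_antisymm
  · exact Nat.lcm_dvd (dvd_mul_right M ℓ) (Nat.mul_dvd_mul_right hNM ℓ)
  · exact hcop.mul_dvd_of_dvd_of_dvd (Nat.dvd_lcm_left _ _)
      ((dvd_mul_left ℓ N).trans (Nat.dvd_lcm_right _ _))

end

end Fermat.Agent.S37.Gen.Generation
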