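import Mathlib
import Fermat.Agent.S37.Gen.Generation
import Fermat.Agent.S37.BaseChange.Hecke
import Fermat.Agent.S37.Kron.Degree

/-!
# S37 (E6m, closing the hypotheses): `π^* T_ℓ^{(N)} = T_ℓ^{(M)} π^*` unconditionally

`hrank` from `Kron/Degree.finrank_alpha`, `hgen` from `Gen/Generation.algebra_adjoin_range_eq_top`.
-/

set_option autoImplicit false

namespace Fermat.Agent.S37.Gen.HeckeGen

open AlgebraicCurve IntermediateField ModularCurve
open Fermat.Agent.S24 Fermat.Agent.S24.BridgeInv Fermat.Agent.S24.PlaceAt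
open Fermat.Agent.S37.HeckeInputs Fermat.Agent.S37.BaseChange.Hecke

noncomputable section

variable {N M : ℕ} [NeZero N] [NeZero M] (ℓ : ℕ) [NeZero ℓ] (hNM : N ∣ M)

include hNM in
/-- equal degrees of `α` at the levels `N ∣ M`, for a prime `ℓ ∤ M`. -/
theorem finrankAlong_alpha_eq (hℓ : ℓ.Prime) (hℓM : ¬ ℓ ∣ M) :
    finrankAlong Kbar (heckeAlphaBar Kbar N ℓ) = finrankAlong Kbar (heckeAlphaBar Kbar M ℓ) := by
  have hℓN : ¬ ℓ ∣ N := fun h => hℓM (h.trans hNM)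
  show (letI := algebraAlong (heckeAlphaBar Kbar N ℓ); Module.finrank (FF N) (FF (N * ℓ)))
    = (letI := algebraAlong (heckeAlphaBar Kbar M ℓ); Module.finrank (FF M) (FF (M * ℓ)))
  rw [Kron.Degree.finrank_alpha N ℓ hℓ hℓN, Kron.Degree.finrank_alpha M ℓ hℓ hℓM]

/-- `F_{Mℓ} = α(F_M) · F_{Nℓ}`, in the shape consumed by `pullback_heckeDivBar_of`. -/
theorem adjoin_range_incl_eq_top (hℓ : ℓ.Prime) (hℓM : ¬ ℓ ∣ M) :
    letI := algebraAlong (heckeAlphaBar Kbar M ℓ)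
    Algebra.adjoin (FF M) (Set.range (incl (mul_dvd_mul_right hNM ℓ))) = ⊤ :=
  Generation.algebra_adjoin_range_eq_top M ℓ
    ((Nat.Prime.coprime_iff_not_dvd hℓ).mpr hℓM).symm
    (incl (mul_dvd_mul_right hNM ℓ)) (fun x => coe_incl _ x)

/-- **(E6)** `π^* T_ℓ^{(N)} = T_ℓ^{(M)} π^*` on divisors, for `N ∣ M` and a prime `ℓ ∤ M`. -/
theorem pullback_heckeDivBar (hℓ : ℓ.Prime) (hℓM : ¬ ℓ ∣ M)
    (hαN : HeckeAlphaBarIntegral Kbar N ℓ) (hβN : HeckeBetaBarIntegral Kbar N ℓ)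
    (hαM : HeckeAlphaBarIntegral Kbar M ℓ) (hβM : HeckeBetaBarIntegral Kbar M ℓ)
    [HasPrincipalDivisors Kbar (FF (N * ℓ))] [HasPrincipalDivisors Kbar (FF (M * ℓ))]
    [HasPrincipalDivisors Kbar (FF M)]
    (hp : (incl hNM).toRingHom.IsIntegral) (D : Divisor Kbar (FF N)) :
    Divisor.pullbackAlong (incl hNM) hp (heckeDivBar hαN hβN D)
      = heckeDivBar hαM hβM (Divisor.pullbackAlong (incl hNM) hp D) :=
  pullback_heckeDivBar_of ℓ hNM (finrankAlong_alpha_eq ℓ hNM hℓ hℓM)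
    (adjoin_range_incl_eq_top ℓ hNM hℓ hℓM) hαN hβN hαM hβM hp D

end

end Fermat.Agent.S37.Gen.HeckeGen
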